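/-
S32 / EMB (helper152) — coordinates: for a free `R`-module `V` with finite basis `b` and a ring
homomorphism `f : R → K` into a field, the `f`-semilinear coordinate map `V → Kⁿ` and the ring
homomorphism `End_R V → End_K (Kⁿ)` (matrix in the basis `b`, entries mapped by `f`).
Mathlib-only.
-/
import Mathlib

set_option autoImplicit false
set_option linter.unusedSectionVars false

noncomputable section

namespace Fermat.Agent.S32.H152

open Matrix

section Coord

variable {R K : Type*} [CommRing R] [Field K] (f : R →+* K) {n : Type*} [Fintype n]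
  [DecidableEq n] {V : Type*} [AddCommGroup V] [Module R V] (b : Module.Basis n R V)

/-- The `f`-semilinear coordinate map. -/
def embCoord : V →+ (n → K) where
  toFun v := fun i => f (b.repr v i)
  map_zero' := by
    funext i
    simp
  map_add' v w := by
    funext i
    simp

theorem embCoord_apply (v : V) (i : n) : embCoord f b v i = f (b.repr v i) := rfl

theorem embCoord_smul (r : R) (v : V) : embCoord f b (r • v) = f r • embCoord f b v := by
  funext i
  simp [embCoord_apply]

theorem embCoord_basis (i : n) : embCoord f b (b i) = Pi.single i 1 := by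
  funext j
  rw [embCoord_apply, Module.Basis.repr_self, Finsupp.single_apply, Pi.single_apply]
  by_cases h : i = j
  · subst h
    simp
  · rw [if_neg h, if_neg (Ne.symm h), map_zero]

theorem embCoord_injective (hf : Function.Injective f) : Function.Injective (embCoord f b) := by
  intro v w h
  apply b.repr.injective
  ext i
  apply hf
  exact congrFun h i

/-- The ring homomorphism `End_R V → End_K (Kⁿ)`. -/
def embEnd : Module.End R V →+* Module.End K (n → K) :=
  ((Matrix.toLinAlgEquiv' : Matrix n n K ≃ₐ[K] _) : Matrix n n K →+* _).comp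
    ((f.mapMatrix).comp ((LinearMap.toMatrixAlgEquiv b : _ ≃ₐ[R] Matrix n n R) : _ →+* _))

theorem embEnd_apply (E : Module.End R V) (x : n → K) :
    embEnd f b E x = ((LinearMap.toMatrix b b E).map f) *ᵥ x := rfl

theorem embEnd_eq (E : Module.End R V) :
    embEnd f b E = Matrix.toLin' ((LinearMap.toMatrix b b E).map f) := rfl

theorem embEnd_coord (E : Module.End R V) (v : V) :
    embEnd f b E (embCoord f b v) = embCoord f b (E v) := by
  funext i
  rw [embEnd_apply, embCoord_apply, ← LinearMap.toMatrix_mulVec_repr b b E v]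
  exact (RingHom.map_mulVec f _ _ i).symm

theorem embEnd_smul (r : R) (E : Module.End R V) :
    embEnd f b (r • E) = f r • embEnd f b E := by
  rw [embEnd_eq, embEnd_eq, map_smul, ← map_smul]
  ext i j
  simp [Matrix.map_apply]

theorem embEnd_trace (E : Module.End R V) :
    LinearMap.trace K (n → K) (embEnd f b E) = f (LinearMap.trace R V E) := by
  rw [LinearMap.trace_eq_matrix_trace R b E, embEnd_eq,
    LinearMap.trace_eq_matrix_trace K (Pi.basisFun K n), LinearMap.toMatrix_eq_toMatrix',
    LinearMap.toMatrix'_toLin']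
  exact (AddMonoidHom.map_trace (f : R →+ K) _).symm

/-- The image of the matrix unit. -/
theorem embEnd_single (i j : n) :
    embEnd f b ((LinearMap.toMatrixAlgEquiv b).symm (Matrix.single i j (1 : R)))
      = Matrix.toLin' (Matrix.single i j (1 : K)) := by
  rw [embEnd_eq]
  congr 1
  have h : LinearMap.toMatrix b b ((LinearMap.toMatrixAlgEquiv b).symm (Matrix.single i j (1 : R)))
      = Matrix.single i j (1 : R) :=
    (LinearMap.toMatrixAlgEquiv b).apply_symm_apply _
  rw [h]
  ext k l
  simp [Matrix.single_apply, apply_ite f]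

end Coord

/-- Coordinates of an element of `I • ⊤` lie in `I`. -/
theorem embCoord_repr_mem {O M n : Type*} [CommRing O] [AddCommGroup M] [Module O M]
    (c : Module.Basis n O M) (I : Ideal O) {x : M} (hx : x ∈ I • (⊤ : Submodule O M)) (j : n) :
    c.repr x j ∈ I := by
  refine Submodule.smul_induction_on (p := fun x => c.repr x j ∈ I) hx ?_ ?_
  · intro a ha y _
    rw [map_smul, Finsupp.smul_apply, smul_eq_mul]
    exact I.mul_mem_right _ ha
  · intro x y hx hy
    rw [map_add, Finsupp.add_apply]
    exact I.add_mem hx hy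

/-- Cancelling a nonzero factor in a discrete valuation ring costs a bounded power of `𝔪`. -/
theorem embCoord_dvr_cancel {O : Type*} [CommRing O] [IsDomain O] [IsDiscreteValuationRing O]
    {δ : O} (hδ : δ ≠ 0) :
    ∃ k : ℕ, ∀ (m : ℕ) (a : O), δ * a ∈ IsLocalRing.maximalIdeal O ^ (m + k) →
      a ∈ IsLocalRing.maximalIdeal O ^ m := by
  obtain ⟨ϖ, hϖ⟩ := IsDiscreteValuationRing.exists_irreducible O
  obtain ⟨k, u, hu⟩ := IsDiscreteValuationRing.eq_unit_mul_pow_irreducible hδ hϖ
  refine ⟨k, fun m a h => ?_⟩
  rw [hϖ.maximalIdeal_eq, Ideal.span_singleton_pow, Ideal.mem_span_singleton] at h ⊢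
  rw [hu, pow_add] at h
  have h1 : ϖ ^ k * ϖ ^ m ∣ ϖ ^ k * ((u : O) * a) := by
    have e1 : ϖ ^ k * ϖ ^ m = ϖ ^ m * ϖ ^ k := mul_comm _ _
    have e2 : ϖ ^ k * ((u : O) * a) = (u : O) * ϖ ^ k * a := by ring
    rw [e1, e2]
    exact h
  have h2 := (mul_dvd_mul_iff_left (pow_ne_zero k hϖ.ne_zero)).mp h1
  exact (Units.dvd_mul_left (u := u)).mp h2

end Fermat.Agent.S32.H152
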