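/-
S32 / piece EMB (helper152) — `embedStatement : Fermat.Agent.S32.EmbedStatement`.

Let `ρ` be a two-dimensional representation over a local ring `T` whose image spans `End_T V`,
`ψ : T → 𝒪'` a point with values in a DVR with `2 ≠ 0`, and `M ≠ 0` a finite free `𝒪'`-module with
Galois action on which every `g` satisfies the characteristic polynomial of `ρ g` specialised along
`ψ`.  Then there is a strict `ψ`-semilinear equivariant map `φ : V → M`.

Proof.  `K = Frac 𝒪'`.  In coordinates (bases `b` of `V`, `c` of `M`), `ρ₀ = ρ ⊗_ψ K` on `K²` has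
`K[G] → M₂(K)` onto, and `π = ρM ⊗ K` on `Kⁿ` satisfies the quadratic relations; Boston–Lenstra–
Ribet over the field `K` (landed `Lib.Ribet.H223.blr_exists_embedding`) gives an injective
equivariant `φ₀ : K² → Kⁿ`.  Clearing denominators of `φ₀ (e_i)` gives `m_i ∈ M`, and
`φ (∑ tᵢ bᵢ) = ∑ ψ(tᵢ) mᵢ`.  A `K`-linear retraction of `φ₀` with cleared denominators shows
`δ ψ(tᵢ) ∈ 𝔪^N` whenever `φ v ∈ 𝔪^N M` (`δ ≠ 0` fixed), which gives strictness.
-/
import Mathlib
import Fermat.Agent.S32.Spec
import Fermat.Agent.Lib.Ribet.H223.BLRCore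
import Fermat.Agent.S32.H152.EmbCoord

set_option autoImplicit false

noncomputable section

namespace Fermat.Agent.S32.H152

open Matrix IsLocalRing Fermat.Agent.S19 Fermat.Agent.Lib.Ribet.H223

/-- Clearing denominators of finitely many vectors. -/
theorem emb_exists_clear {O K : Type*} [CommRing O] [IsDomain O] [Field K] [Algebra O K]
    [IsFractionRing O K] {ι κ : Type*} [Finite ι] [Finite κ] (x : ι → κ → K) :
    ∃ a : O, a ≠ 0 ∧ ∀ i j, ∃ y : O, algebraMap O K y = algebraMap O K a * x i j := by
  classical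
  have := Fintype.ofFinite ι
  have := Fintype.ofFinite κ
  obtain ⟨a, ha⟩ := IsLocalization.exist_integer_multiples_of_finset (nonZeroDivisors O)
    (Finset.univ.image (fun p : ι × κ => x p.1 p.2))
  refine ⟨a, nonZeroDivisors.ne_zero a.2, fun i j => ?_⟩
  obtain ⟨y, hy⟩ := ha (x i j) (Finset.mem_image.mpr ⟨(i, j), Finset.mem_univ _, rfl⟩)
  refine ⟨y, ?_⟩
  rw [hy, Algebra.smul_def]

/-- **Piece EMB of row S32.** -/
theorem embedStatement : EmbedStatement := by
  intro T _ _ ρ hspan 𝒪' _ _ _ h2 ψ M _ _ _ _ _ ρM hrel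
  classical
  set K := FractionRing 𝒪' with hK
  set ι : 𝒪' →+* K := algebraMap 𝒪' K with hιdef
  have hι : Function.Injective ι := IsFractionRing.injective 𝒪' K
  set f : T →+* K := ι.comp ψ with hf
  set b : Module.Basis (Fin 2) T ρ.V := Module.finBasisOfFinrankEq T ρ.V ρ.finrank_eq with hb
  set c := Module.Free.chooseBasis 𝒪' M with hc
  -- the two representations over `K`
  set ρ₀ : GalQ →* Module.End K (Fin 2 → K) :=
    ((embEnd f b : Module.End T ρ.V →+* _) : Module.End T ρ.V →* _).comp ρ.ρ with hρ₀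
  set π : GalQ →* Module.End K (Module.Free.ChooseBasisIndex 𝒪' M → K) :=
    ((embEnd ι c : Module.End 𝒪' M →+* _) : Module.End 𝒪' M →* _).comp ρM with hπdef
  set d : GalQ →* K := ((f : T →* K).comp (Units.coeHom T)).comp ρ.det with hd
  have hρ₀g : ∀ g, ρ₀ g = embEnd f b (ρ.ρ g) := fun g => rfl
  have hπg : ∀ g, π g = embEnd ι c (ρM g) := fun g => rfl
  have hdg : ∀ g, d g = f ((ρ.det g : Tˣ) : T) := fun g => rfl
  have hK2 : (2 : K) ≠ 0 := by
    intro h0
    apply h2
    apply hι
    rw [map_zero, map_ofNat]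
    exact h0
  have hfin2 : Module.finrank K (Fin 2 → K) = 2 := by simp
  -- surjectivity of `K[G] → End (K²)`
  have hsurj : Function.Surjective (MonoidAlgebra.lift K (Module.End K (Fin 2 → K)) GalQ ρ₀) := by
    set A₀ := (MonoidAlgebra.lift K (Module.End K (Fin 2 → K)) GalQ ρ₀).range with hA₀
    have hg : ∀ g, ρ₀ g ∈ A₀ := fun g =>
      ⟨MonoidAlgebra.of K GalQ g, MonoidAlgebra.lift_of _ _⟩
    have hall : ∀ E : Module.End T ρ.V, embEnd f b E ∈ A₀ := by
      intro E
      have hE : E ∈ Submodule.span T (Set.range ρ.ρ) := by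
        rw [hspan]
        exact Submodule.mem_top
      induction hE using Submodule.span_induction with
      | mem x hx =>
        obtain ⟨g, rfl⟩ := hx
        exact hg g
      | zero =>
        rw [map_zero]
        exact zero_mem _
      | add x y _ _ hx hy =>
        rw [map_add]
        exact add_mem hx hy
      | smul t x _ hx =>
        rw [embEnd_smul]
        exact Subalgebra.smul_mem _ hx _
    intro y
    have hy : y ∈ A₀ := by
      obtain ⟨Y, rfl⟩ := (Matrix.toLinAlgEquiv' : Matrix (Fin 2) (Fin 2) K ≃ₐ[K] _).surjective y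
      rw [Matrix.matrix_eq_sum_single Y]
      simp only [map_sum]
      refine Subalgebra.sum_mem _ fun i _ => Subalgebra.sum_mem _ fun j _ => ?_
      have e1 : (Matrix.single i j (Y i j) : Matrix (Fin 2) (Fin 2) K)
          = Y i j • Matrix.single i j (1 : K) := by
        rw [Matrix.smul_single, smul_eq_mul, mul_one]
      rw [e1, map_smul]
      refine Subalgebra.smul_mem _ ?_ _
      have e2 := embEnd_single f b i j
      have e3 : (Matrix.toLinAlgEquiv' : Matrix (Fin 2) (Fin 2) K ≃ₐ[K] _)
          (Matrix.single i j (1 : K)) = Matrix.toLin' (Matrix.single i j (1 : K)) := rfl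
      rw [e3, ← e2]
      exact hall _
    exact hy
  -- the quadratic relations
  have hπ : ∀ g, π g * π g - LinearMap.trace K (Fin 2 → K) (ρ₀ g) • π g + d g • 1 = 0 := by
    intro g
    have h := congrArg (embEnd ι c) (hrel g)
    rw [map_zero, map_add, map_sub, map_mul, embEnd_smul, embEnd_smul, map_one] at h
    rw [hπg, hρ₀g, embEnd_trace, hdg]
    exact h
  have : Nonempty (Module.Free.ChooseBasisIndex 𝒪' M) := by
    by_contra hne
    rw [not_nonempty_iff] at hne
    obtain ⟨x, y, hxy⟩ := exists_pair_ne M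
    apply hxy
    apply c.repr.injective
    ext j
    exact (hne.false j).elim
  have : Nontrivial (Module.Free.ChooseBasisIndex 𝒪' M → K) := inferInstance
  obtain ⟨φ₀, hφ₀inj, hφ₀eq⟩ := blr_exists_embedding hK2 hfin2 ρ₀ π d hsurj hπ
  -- retraction
  obtain ⟨r₀, hr₀⟩ := LinearMap.exists_leftInverse_of_injective φ₀
    (LinearMap.ker_eq_bot.mpr hφ₀inj)
  -- clearing denominators
  obtain ⟨a, ha0, ha⟩ := emb_exists_clear (O := 𝒪') (K := K)
    (fun (i : Fin 2) (j : Module.Free.ChooseBasisIndex 𝒪' M) => φ₀ (Pi.single i 1) j)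
  obtain ⟨a', ha'0, ha'⟩ := emb_exists_clear (O := 𝒪') (K := K)
    (fun (i : Fin 2) (j : Module.Free.ChooseBasisIndex 𝒪' M) => r₀ (Pi.single j 1) i)
  choose y hy using ha
  choose z hz using ha'
  -- the vectors `m i`
  set mvec : Fin 2 → M := fun i => ∑ j, y i j • c j with hmvec
  have hmcoord : ∀ i, embCoord ι c (mvec i) = ι a • φ₀ (Pi.single i 1) := by
    intro i
    funext j
    rw [embCoord_apply, hmvec]
    simp only [map_sum, map_smul, Module.Basis.repr_self, Finsupp.coe_finsetSum,
      Finset.sum_apply, Finsupp.smul_apply, Finsupp.single_apply, smul_eq_mul, mul_ite, mul_one,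
      mul_zero, Finset.sum_ite_eq', Finset.mem_univ, if_true, Pi.smul_apply]
    exact hy i j
  -- the map `φ`
  set φ : ρ.V →+ M :=
    { toFun := fun v => ∑ i, ψ (b.repr v i) • mvec i
      map_zero' := by simp
      map_add' := fun v w => by
        simp only [map_add, Finsupp.add_apply, add_smul, Finset.sum_add_distrib] } with hφ
  have hφv : ∀ v, φ v = ∑ i, ψ (b.repr v i) • mvec i := fun v => rfl
  have hφcoord : ∀ v, embCoord ι c (φ v) = ι a • φ₀ (embCoord f b v) := by
    intro v
    have e1 : embCoord f b v = ∑ i, f (b.repr v i) • (Pi.single i 1 : Fin 2 → K) := by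
      funext j
      simp [embCoord_apply, Finset.sum_apply, Pi.single_apply]
    rw [hφv, map_sum, e1, map_sum, Finset.smul_sum]
    refine Finset.sum_congr rfl fun i _ => ?_
    rw [embCoord_smul, hmcoord, map_smul, smul_comm]
    rfl
  refine ⟨φ, fun t v => ?_, fun g v => ?_, ?_⟩
  · -- semilinear
    rw [hφv, hφv, Finset.smul_sum]
    refine Finset.sum_congr rfl fun i _ => ?_
    rw [map_smul, Finsupp.smul_apply, smul_eq_mul, map_mul, mul_smul]
  · -- equivariant
    apply embCoord_injective ι c hι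
    rw [hφcoord, ← embEnd_coord ι c (ρM g) (φ v), hφcoord, ← embEnd_coord f b (ρ.ρ g) v,
      ← hρ₀g, hφ₀eq, map_smul, hπg]
  · -- strict
    have hδ : a' * a ≠ 0 := mul_ne_zero ha'0 ha0
    obtain ⟨k, hk⟩ := embCoord_dvr_cancel hδ
    refine ⟨k, fun m v hv => ?_⟩
    -- coordinates of `φ v` lie in `𝔪 ^ (m + k)`
    have hcoord : ∀ j, c.repr (φ v) j ∈ maximalIdeal 𝒪' ^ (m + k) :=
      fun j => embCoord_repr_mem c _ hv j
    -- `ι (a' a ψ(tᵢ)) = ∑ⱼ ι (z i j) ι (coord j)`
    have hkey : ∀ i, ι (a' * a * ψ (b.repr v i))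
        = ∑ j, ι (z i j) * ι (c.repr (φ v) j) := by
      intro i
      have e1 : r₀ (embCoord ι c (φ v)) = ι a • embCoord f b v := by
        rw [hφcoord, map_smul]
        have := congrArg (fun L : (Fin 2 → K) →ₗ[K] (Fin 2 → K) => L (embCoord f b v)) hr₀
        simp only [LinearMap.comp_apply, LinearMap.id_apply] at this
        rw [this]
      have e2 : embCoord ι c (φ v)
          = ∑ j, ι (c.repr (φ v) j) • (Pi.single j 1 : Module.Free.ChooseBasisIndex 𝒪' M → K) := by
        funext j
        simp [embCoord_apply, Finset.sum_apply, Pi.single_apply]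
      have e3 := congrFun e1 i
      rw [e2, map_sum, Finset.sum_apply] at e3
      simp only [map_smul, Pi.smul_apply, smul_eq_mul] at e3
      have e4 : ι (a' * a * ψ (b.repr v i)) = ι a' * (ι a * embCoord f b v i) := by
        rw [map_mul, map_mul, embCoord_apply, mul_assoc]
        rfl
      rw [e4, ← e3, Finset.mul_sum]
      refine Finset.sum_congr rfl fun j _ => ?_
      rw [hz i j]
      ring
    have hmem : ∀ i, a' * a * ψ (b.repr v i) ∈ maximalIdeal 𝒪' ^ (m + k) := by
      intro i
      have e : a' * a * ψ (b.repr v i) = ∑ j, z i j * c.repr (φ v) j := by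
        apply hι
        rw [hkey i, map_sum]
        refine Finset.sum_congr rfl fun j _ => ?_
        rw [map_mul]
      rw [e]
      exact Ideal.sum_mem _ fun j _ => Ideal.mul_mem_left _ _ (hcoord j)
    have hti : ∀ i, b.repr v i ∈ Ideal.comap ψ (maximalIdeal 𝒪' ^ m) :=
      fun i => Ideal.mem_comap.mpr (hk m _ (hmem i))
    have hv' : v = ∑ i, b.repr v i • b i := (b.sum_repr v).symm
    rw [hv']
    exact Submodule.sum_mem _ fun i _ => Submodule.smul_mem_smul (hti i) Submodule.mem_top

end Fermat.Agent.S32.H152
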